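import Fermat.Agent.S18.SPEC9202.Lift

/-!
# S18 / SPEC piece 5 (BRIDGE), helper9202: counting points — the form of (S1) consumed by the
discriminant criterion in Theorem T

Currency: for a commutative algebra `C` over an algebraically closed field `K`, finite-dimensional
(or just integral), the three numbers

* `Nat.card (C →ₐ[K] K)`                      (`K`-points),
* `Nat.card (MaximalSpectrum C)`              (maximal ideals),
* `Module.finrank K (C ⧸ nilradical C)`       (dimension of the reduced quotient)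

coincide (`pointsEquivMaximal`, `finrank_quotient_nilradical_eq_card_maximalSpectrum`,
`finrank_quotient_nilradical_eq_card_algHom`).

(S1), counting form: `R → A`, `A` integrally closed with algebraically closed fraction field `L`,
`k` an algebraically closed field with `A → k`; `Z` a commutative `R`-algebra, finite free over `R`.
Then the special fibre `k ⊗ Z` has at most as many points as the generic fibre `L ⊗ Z`:
`card_algHom_residue_le`, `card_algHom_tensor_residue_le`,
`finrank_quot_nilradical_tensor_residue_le`, `finrank_quot_nilradical_le_card_maximal_of_equiv`,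
and for a quotient `𝒪/(x)`: `card_points_quotient_residue_le`.
-/

set_option autoImplicit false

namespace Fermat.Agent.S18.SPEC9202

open TensorProduct

section Points

variable {K : Type*} [Field K] {C : Type*} [CommRing C] [Algebra K C]

/-- The kernel of a `K`-point is a maximal ideal. -/
theorem ker_algHom_isMaximal (χ : C →ₐ[K] K) : (RingHom.ker (χ : C →+* K)).IsMaximal :=
  RingHom.ker_isMaximal_of_surjective (χ : C →+* K) (fun a => ⟨algebraMap K C a, by simp⟩)

/-- A `K`-point is determined by its kernel. -/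
theorem algHom_eq_of_ker_le {χ χ' : C →ₐ[K] K}
    (h : RingHom.ker (χ : C →+* K) ≤ RingHom.ker (χ' : C →+* K)) : χ = χ' := by
  ext c
  have h1 : c - algebraMap K C (χ c) ∈ RingHom.ker (χ : C →+* K) := by
    rw [RingHom.mem_ker]
    simp
  have h2 := h h1
  rw [RingHom.mem_ker] at h2
  have h3 : χ' c - χ c = 0 := by simpa using h2
  exact (sub_eq_zero.mp h3).symm

/-- Over an algebraically closed field, a maximal ideal with integral residue ring is the kernel
of a `K`-point. -/
theorem exists_algHom_ker_eq [IsAlgClosed K] (X : Ideal C) [hX : X.IsMaximal]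
    [Algebra.IsIntegral K (C ⧸ X)] : ∃ χ : C →ₐ[K] K, RingHom.ker (χ : C →+* K) = X := by
  have : X.IsPrime := hX.isPrime
  have hbij : Function.Bijective (algebraMap K (C ⧸ X)) :=
    IsAlgClosed.algebraMap_bijective_of_isIntegral
  let e : K ≃ₐ[K] (C ⧸ X) := AlgEquiv.ofBijective (Algebra.ofId K (C ⧸ X)) hbij
  refine ⟨(e.symm : (C ⧸ X) →ₐ[K] K).comp (Ideal.Quotient.mkₐ K X), ?_⟩
  ext c
  rw [RingHom.mem_ker]
  have h1 : ((e.symm : (C ⧸ X) →ₐ[K] K).comp (Ideal.Quotient.mkₐ K X) : C →+* K) c
      = e.symm (Ideal.Quotient.mk X c) := rfl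
  rw [h1, map_eq_zero_iff _ e.symm.injective]
  exact Ideal.Quotient.eq_zero_iff_mem

/-- `K`-points = maximal ideals, for `C` integral over an algebraically closed field `K`. -/
noncomputable def pointsEquivMaximal [IsAlgClosed K] [Algebra.IsIntegral K C] :
    (C →ₐ[K] K) ≃ MaximalSpectrum C :=
  Equiv.ofBijective (fun χ => ⟨RingHom.ker (χ : C →+* K), ker_algHom_isMaximal χ⟩)
    ⟨fun χ χ' h => algHom_eq_of_ker_le (le_of_eq (congrArg MaximalSpectrum.asIdeal h)),
     fun X => by
       obtain ⟨χ, hχ⟩ := exists_algHom_ker_eq (K := K) X.asIdeal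
       exact ⟨χ, MaximalSpectrum.ext hχ⟩⟩

theorem pointsEquivMaximal_asIdeal [IsAlgClosed K] [Algebra.IsIntegral K C] (χ : C →ₐ[K] K) :
    (pointsEquivMaximal χ).asIdeal = RingHom.ker (χ : C →+* K) := rfl

theorem card_algHom_eq_card_maximalSpectrum [IsAlgClosed K] [Algebra.IsIntegral K C] :
    Nat.card (C →ₐ[K] K) = Nat.card (MaximalSpectrum C) :=
  Nat.card_congr pointsEquivMaximal

/-- The reduced quotient of a finite-dimensional commutative algebra over an algebraically closed
field has dimension the number of maximal ideals. -/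
theorem finrank_quotient_nilradical_eq_card_maximalSpectrum [IsAlgClosed K]
    [FiniteDimensional K C] :
    Module.finrank K (C ⧸ nilradical C) = Nat.card (MaximalSpectrum C) := by
  classical
  have : IsArtinianRing C := IsArtinianRing.of_finite K C
  let _ : Fintype (MaximalSpectrum C) := Fintype.ofFinite _
  have e : (C ⧸ nilradical C) ≃ₗ[K] (∀ I : MaximalSpectrum C, C ⧸ I.asIdeal) :=
    (IsArtinianRing.quotNilradicalEquivPi C).toLinearEquiv.restrictScalars K
  have h1 : ∀ I : MaximalSpectrum C, Module.finrank K (C ⧸ I.asIdeal) = 1 := by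
    intro I
    have : I.asIdeal.IsPrime := I.isMaximal.isPrime
    have hbij : Function.Bijective (algebraMap K (C ⧸ I.asIdeal)) :=
      IsAlgClosed.algebraMap_bijective_of_isIntegral
    let e' : K ≃ₐ[K] (C ⧸ I.asIdeal) :=
      AlgEquiv.ofBijective (Algebra.ofId K (C ⧸ I.asIdeal)) hbij
    rw [← e'.toLinearEquiv.finrank_eq, Module.finrank_self]
  rw [e.finrank_eq, Module.finrank_pi_fintype, Nat.card_eq_fintype_card]
  simp [h1]

/-- The reduced quotient of a finite-dimensional commutative algebra over an algebraically closed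
field has dimension the number of `K`-points. -/
theorem finrank_quotient_nilradical_eq_card_algHom [IsAlgClosed K] [FiniteDimensional K C] :
    Module.finrank K (C ⧸ nilradical C) = Nat.card (C →ₐ[K] K) := by
  rw [finrank_quotient_nilradical_eq_card_maximalSpectrum, card_algHom_eq_card_maximalSpectrum]

end Points

section Specialisation

variable {R : Type*} [CommRing R]
  {A : Type*} [CommRing A] [IsDomain A] [IsIntegrallyClosed A]
  {L : Type*} [Field L] [Algebra A L] [IsFractionRing A L] [IsAlgClosed L]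
  {k : Type*} [Field k] [Algebra A k]
  [Algebra R A] [Algebra R L] [Algebra R k] [IsScalarTower R A L] [IsScalarTower R A k]
  {Z : Type*} [CommRing Z] [Algebra R Z] [Module.Free R Z] [Module.Finite R Z]

include A in
/-- **(S1), counting form (points).**  The special fibre has at most as many points as the generic
fibre. -/
theorem card_algHom_residue_le :
    Nat.card (Z →ₐ[R] k) ≤ Nat.card (Z →ₐ[R] L) := by
  classical
  have : Finite (Z →ₐ[R] L) := Finite.algHom R Z L
  have hlift : ∀ χ : Z →ₐ[R] k, ∃ P : Z →ₐ[R] A, ∀ z, algebraMap A k (P z) = χ z :=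
    fun χ => exists_algHom_lift_baseChange' L χ
  choose P hP using hlift
  let ι : (Z →ₐ[R] k) → (Z →ₐ[R] L) := fun χ => (IsScalarTower.toAlgHom R A L).comp (P χ)
  have hinj : Function.Injective ι := by
    intro χ χ' h
    ext z
    have h1 : algebraMap A L (P χ z) = algebraMap A L (P χ' z) := DFunLike.congr_fun h z
    have h2 := IsFractionRing.injective A L h1
    rw [← hP χ z, ← hP χ' z, h2]
  exact Nat.card_le_card_of_injective ι hinj

include A in
/-- (S1), counting form, for the base-changed algebras. -/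
theorem card_algHom_tensor_residue_le :
    Nat.card ((k ⊗[R] Z) →ₐ[k] k) ≤ Nat.card ((L ⊗[R] Z) →ₐ[L] L) := by
  rw [← Nat.card_congr (Algebra.TensorProduct.liftEquivRight R k Z k),
    ← Nat.card_congr (Algebra.TensorProduct.liftEquivRight R L Z L)]
  exact card_algHom_residue_le (A := A)

include A in
/-- **(S1) as consumed by the discriminant criterion**: the dimension of the reduced special fibre
is at most the number of maximal ideals of the generic fibre. -/
theorem finrank_quot_nilradical_tensor_residue_le [IsAlgClosed k] :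
    Module.finrank k ((k ⊗[R] Z) ⧸ nilradical (k ⊗[R] Z)) ≤
      Nat.card (MaximalSpectrum (L ⊗[R] Z)) := by
  rw [finrank_quotient_nilradical_eq_card_algHom, ← card_algHom_eq_card_maximalSpectrum (K := L)]
  exact card_algHom_tensor_residue_le (A := A)

include A in
/-- Same, for arbitrary models `Ck ≃ k ⊗ Z`, `CL ≃ L ⊗ Z` of the two fibres. -/
theorem finrank_quot_nilradical_le_card_maximal_of_equiv [IsAlgClosed k]
    {Ck : Type*} [CommRing Ck] [Algebra k Ck] (ek : Ck ≃ₐ[k] k ⊗[R] Z)
    {CL : Type*} [CommRing CL] [Algebra L CL] (eL : CL ≃ₐ[L] L ⊗[R] Z) :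
    Module.finrank k (Ck ⧸ nilradical Ck) ≤ Nat.card (MaximalSpectrum CL) := by
  have : FiniteDimensional k Ck := Module.Finite.equiv ek.symm.toLinearEquiv
  have : FiniteDimensional L CL := Module.Finite.equiv eL.symm.toLinearEquiv
  rw [finrank_quotient_nilradical_eq_card_algHom, ← card_algHom_eq_card_maximalSpectrum (K := L),
    Nat.card_congr (ek.arrowCongr AlgEquiv.refl), Nat.card_congr (eL.arrowCongr AlgEquiv.refl)]
  exact card_algHom_tensor_residue_le (A := A)

include A in
/-- Most flexible form: `Ck`, `CL` ANY finite-dimensional models of the two fibres, related to `Z`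
only through `R`-algebra maps `u : Z → Ck`, `v : Z → CL` such that
* `k`-points of `Ck` are determined by their restriction to `Z` (e.g. `u(Z)` spans `Ck` over `k`,
  see `algHom_ext_of_span_range_eq_top`), and
* every `R`-point `Z → L` extends to an `L`-point of `CL` (e.g. `CL = L ⊗ Z`). -/
theorem finrank_quot_nilradical_le_card_maximal_of_maps [IsAlgClosed k]
    {Ck : Type*} [CommRing Ck] [Algebra k Ck] [FiniteDimensional k Ck] [Algebra R Ck]
    [IsScalarTower R k Ck]
    (u : Z →ₐ[R] Ck) (hu : ∀ χ χ' : Ck →ₐ[k] k, (∀ z, χ (u z) = χ' (u z)) → χ = χ')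
    {CL : Type*} [CommRing CL] [Algebra L CL] [FiniteDimensional L CL] [Algebra R CL]
    [IsScalarTower R L CL]
    (v : Z →ₐ[R] CL) (hv : ∀ φ : Z →ₐ[R] L, ∃ ψ : CL →ₐ[L] L, ∀ z, ψ (v z) = φ z) :
    Module.finrank k (Ck ⧸ nilradical Ck) ≤ Nat.card (MaximalSpectrum CL) := by
  classical
  have : Finite (Z →ₐ[R] k) := Finite.algHom R Z k
  have : Finite (Z →ₐ[R] L) := Finite.algHom R Z L
  have : Finite (CL →ₐ[L] L) := Finite.algHom L CL L
  rw [finrank_quotient_nilradical_eq_card_algHom, ← card_algHom_eq_card_maximalSpectrum (K := L)]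
  have h1 : Nat.card (Ck →ₐ[k] k) ≤ Nat.card (Z →ₐ[R] k) := by
    refine Nat.card_le_card_of_injective (fun χ => (χ.restrictScalars R).comp u) ?_
    intro χ χ' h
    exact hu χ χ' (fun z => DFunLike.congr_fun h z)
  have h2 : Nat.card (Z →ₐ[R] k) ≤ Nat.card (Z →ₐ[R] L) := card_algHom_residue_le (A := A)
  have h3 : Nat.card (Z →ₐ[R] L) ≤ Nat.card (CL →ₐ[L] L) := by
    choose ψ hψ using hv
    refine Nat.card_le_card_of_injective ψ ?_
    intro φ φ' h
    ext z
    rw [← hψ φ z, ← hψ φ' z, h]
  exact h1.trans (h2.trans h3)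

omit [IsDomain A] [IsIntegrallyClosed A] [Algebra R A] [IsScalarTower R A k] [Algebra A k]
  [Module.Free R Z] [Module.Finite R Z] in
/-- `k`-points of `Ck` are determined on a spanning set. -/
theorem algHom_ext_of_span_range_eq_top
    {Ck : Type*} [CommRing Ck] [Algebra k Ck] [Algebra R Ck] [IsScalarTower R k Ck]
    (u : Z →ₐ[R] Ck) (hspan : Submodule.span k (Set.range u) = ⊤)
    (χ χ' : Ck →ₐ[k] k) (h : ∀ z, χ (u z) = χ' (u z)) : χ = χ' := by
  apply AlgHom.toLinearMap_injective
  apply LinearMap.ext_on hspan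
  rintro _ ⟨z, rfl⟩
  exact h z

end Specialisation

section Quotient

variable {R : Type*} [CommRing R] {𝒪 : Type*} [CommRing 𝒪] [Algebra R 𝒪] (I : Ideal 𝒪)

/-- Points of `𝒪 ⧸ I` = points of `𝒪` killing `I`. -/
noncomputable def quotientPointsEquiv (K : Type*) [CommRing K] [Algebra R K] :
    ((𝒪 ⧸ I) →ₐ[R] K) ≃ {χ : 𝒪 →ₐ[R] K // ∀ c ∈ I, χ c = 0} where
  toFun ψ := ⟨ψ.comp (Ideal.Quotient.mkₐ R I), fun c hc => by
    have : (Ideal.Quotient.mkₐ R I) c = 0 := Ideal.Quotient.eq_zero_iff_mem.mpr hc
    rw [AlgHom.comp_apply, this, map_zero]⟩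
  invFun χ := Ideal.Quotient.liftₐ I χ.1 χ.2
  left_inv ψ := by
    apply AlgHom.ext
    intro z
    obtain ⟨c, rfl⟩ := Ideal.Quotient.mk_surjective z
    rfl
  right_inv χ := by
    apply Subtype.ext
    apply AlgHom.ext
    intro c
    rfl

omit I in
theorem forall_mem_span_singleton_iff {K : Type*} [CommRing K] [Algebra R K] (x : 𝒪)
    (χ : 𝒪 →ₐ[R] K) : (∀ c ∈ Ideal.span {x}, χ c = 0) ↔ χ x = 0 := by
  refine ⟨fun h => h x (Ideal.subset_span rfl), fun h c hc => ?_⟩
  obtain ⟨y, rfl⟩ := Ideal.mem_span_singleton'.mp hc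
  rw [map_mul, h, mul_zero]

variable
  {A : Type*} [CommRing A] [IsDomain A] [IsIntegrallyClosed A]
  {L : Type*} [Field L] [Algebra A L] [IsFractionRing A L] [IsAlgClosed L]
  {k : Type*} [Field k] [Algebra A k]
  [Algebra R A] [Algebra R L] [Algebra R k] [IsScalarTower R A L] [IsScalarTower R A k]

include A in
/-- (S1), counting form, for a quotient: if `𝒪 ⧸ I` is finite free over `R`, then the points of
the special fibre killing `I` are at most as many as the points of the generic fibre killing `I`.
-/
theorem card_points_quotient_residue_le [Module.Free R (𝒪 ⧸ I)] [Module.Finite R (𝒪 ⧸ I)] :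
    Nat.card {χ : 𝒪 →ₐ[R] k // ∀ c ∈ I, χ c = 0} ≤
      Nat.card {φ : 𝒪 →ₐ[R] L // ∀ c ∈ I, φ c = 0} := by
  rw [← Nat.card_congr (quotientPointsEquiv I k), ← Nat.card_congr (quotientPointsEquiv I L)]
  exact card_algHom_residue_le (A := A)

include A in
/-- (S1), counting form, for a principal quotient `𝒪/(x)`. -/
theorem card_points_span_residue_le (x : 𝒪)
    [Module.Free R (𝒪 ⧸ Ideal.span {x})] [Module.Finite R (𝒪 ⧸ Ideal.span {x})] :
    Nat.card {χ : 𝒪 →ₐ[R] k // χ x = 0} ≤ Nat.card {φ : 𝒪 →ₐ[R] L // φ x = 0} := by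
  rw [← Nat.card_congr (Equiv.subtypeEquivRight (forall_mem_span_singleton_iff (K := k) x)),
    ← Nat.card_congr (Equiv.subtypeEquivRight (forall_mem_span_singleton_iff (K := L) x))]
  exact card_points_quotient_residue_le (A := A) (Ideal.span {x})

end Quotient

end Fermat.Agent.S18.SPEC9202
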