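import Mathlib

/-!
# S18 / SPEC (helper9202): lifting points from the special fibre — the point-set form of (S1)

`A` an integrally closed domain with algebraically closed fraction field (e.g. a valuation ring of
`Qbar`), `Z` a commutative `A`-algebra which is flat and integral over `A` (e.g. finite free).
Then every `A`-algebra hom `χ : Z → k` into a domain `k` (e.g. the residue field) lifts to an
`A`-valued point `P : Z → A`, i.e. `algebraMap A k (P z) = χ z`.

This is the multiplicity-free part of (S1) of the route note: every point `X` of the special fibre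
`Z ⊗ k` "receives" a point `P` of the generic fibre.  No multiplicities, no char polys.
-/

set_option autoImplicit false

namespace Fermat.Agent.S18.SPEC9202

open Polynomial

/-- If a monic polynomial over an integrally closed domain `A` with algebraically closed fraction
field kills an element `d` of a domain `D`, then `d` comes from `A`. -/
theorem exists_algebraMap_eq_of_aeval_eq_zero'
    {A : Type*} [CommRing A] [IsDomain A] [IsIntegrallyClosed A]
    (L : Type*) [Field L] [Algebra A L] [IsFractionRing A L] [IsAlgClosed L]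
    {D : Type*} [CommRing D] [IsDomain D] [Algebra A D] (d : D) :
    ∀ (n : ℕ) (f : A[X]), f.Monic → f.natDegree = n → aeval d f = 0 →
      ∃ a : A, algebraMap A D a = d := by
  intro n
  induction n with
  | zero =>
    intro f hf hdeg h0
    have h1 : f = 1 := hf.natDegree_eq_zero.mp hdeg
    rw [h1, map_one] at h0
    exact absurd h0 one_ne_zero
  | succ n ih =>
    intro f hf hdeg h0
    have hdeg' : (f.map (algebraMap A L)).degree ≠ 0 := by
      have h1 : (f.map (algebraMap A L)).natDegree ≠ 0 := by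
        rw [hf.natDegree_map, hdeg]
        exact Nat.succ_ne_zero n
      exact_mod_cast degree_ne_of_natDegree_ne h1
    obtain ⟨r, hr⟩ := IsAlgClosed.exists_root _ hdeg'
    have hrint : IsIntegral A r := ⟨f, hf, by
      rw [← eval_map]; exact hr⟩
    obtain ⟨a, rfl⟩ := IsIntegrallyClosed.isIntegral_iff.mp hrint
    have hroot : f.IsRoot a := by
      have h2 : algebraMap A L (f.eval a) = 0 := by
        rw [← eval₂_at_apply, ← eval_map]; exact hr
      exact (IsFractionRing.injective A L) (by rw [h2, map_zero])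
    have hmul : (X - C a) * (f /ₘ (X - C a)) = f := mul_divByMonic_eq_iff_isRoot.mpr hroot
    have hgm : (f /ₘ (X - C a)).Monic :=
      Monic.of_mul_monic_left (monic_X_sub_C a) (by rw [hmul]; exact hf)
    have hgdeg : (f /ₘ (X - C a)).natDegree = n := by
      rw [natDegree_divByMonic f (monic_X_sub_C a), hdeg, natDegree_X_sub_C]
      rfl
    have h3 : (d - algebraMap A D a) * aeval d (f /ₘ (X - C a)) = 0 := by
      have := congrArg (aeval d) hmul
      rw [map_mul, map_sub, aeval_X, aeval_C, h0] at this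
      exact this
    rcases mul_eq_zero.mp h3 with h | h
    · exact ⟨a, (sub_eq_zero.mp h).symm⟩
    · exact ih _ hgm hgdeg h

/-- **Lifting of points.**  `Z` flat and integral over `A`; every `A`-algebra hom from `Z` to a
domain `k` lifts to an `A`-valued point of `Z`. -/
theorem exists_algHom_lift'
    {A : Type*} [CommRing A] [IsDomain A] [IsIntegrallyClosed A]
    (L : Type*) [Field L] [Algebra A L] [IsFractionRing A L] [IsAlgClosed L]
    {k : Type*} [CommRing k] [IsDomain k] [Algebra A k]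
    {Z : Type*} [CommRing Z] [Algebra A Z] [Module.Flat A Z] [Algebra.IsIntegral A Z]
    (χ : Z →ₐ[A] k) : ∃ P : Z →ₐ[A] A, ∀ z, algebraMap A k (P z) = χ z := by
  classical
  set Q : Ideal Z := RingHom.ker (χ : Z →+* k) with hQ
  have hQp : Q.IsPrime := RingHom.ker_isPrime _
  have hbot : (⊥ : Ideal A).IsPrime := Ideal.isPrime_bot
  obtain ⟨𝔭, h𝔭Q, h𝔭p, h𝔭over⟩ :=
    Ideal.exists_ideal_le_liesOver_of_le (p := (⊥ : Ideal A)) (q := Q.under A) Q bot_le
  have hinj : Function.Injective (algebraMap A (Z ⧸ 𝔭)) := by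
    rw [injective_iff_map_eq_zero]
    intro a ha
    have h1 : a ∈ 𝔭.under A := by
      rw [Ideal.under_def, Ideal.mem_comap]
      exact Ideal.Quotient.eq_zero_iff_mem.mp ha
    rw [← h𝔭over.over] at h1
    exact h1
  have hsurj : Function.Surjective (algebraMap A (Z ⧸ 𝔭)) := by
    intro d
    obtain ⟨f, hf, hfd⟩ := Algebra.IsIntegral.isIntegral (R := A) d
    exact exists_algebraMap_eq_of_aeval_eq_zero' L d _ f hf rfl (by rw [aeval_def]; exact hfd)
  let e : A ≃ₐ[A] (Z ⧸ 𝔭) := AlgEquiv.ofBijective (Algebra.ofId A (Z ⧸ 𝔭)) ⟨hinj, hsurj⟩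
  refine ⟨(e.symm : (Z ⧸ 𝔭) →ₐ[A] A).comp (Ideal.Quotient.mkₐ A 𝔭), fun z => ?_⟩
  set a : A := ((e.symm : (Z ⧸ 𝔭) →ₐ[A] A).comp (Ideal.Quotient.mkₐ A 𝔭)) z with ha
  have h1 : Ideal.Quotient.mk 𝔭 (z - algebraMap A Z a) = 0 := by
    have h2 : e a = Ideal.Quotient.mk 𝔭 z := by
      rw [ha]; simp
    have h3 : e a = Ideal.Quotient.mk 𝔭 (algebraMap A Z a) := rfl
    rw [map_sub, ← h3, h2, sub_self]
  have h4 : z - algebraMap A Z a ∈ Q := h𝔭Q (Ideal.Quotient.eq_zero_iff_mem.mp h1)
  rw [hQ, RingHom.mem_ker, map_sub, sub_eq_zero] at h4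
  have h5 : (χ : Z →+* k) (algebraMap A Z a) = algebraMap A k a := χ.commutes a
  rw [← h5, ← h4]
  rfl

/-- `exists_algebraMap_eq_of_aeval_eq_zero'` with `L = FractionRing A`. -/
theorem exists_algebraMap_eq_of_aeval_eq_zero
    {A : Type*} [CommRing A] [IsDomain A] [IsIntegrallyClosed A] [IsAlgClosed (FractionRing A)]
    {D : Type*} [CommRing D] [IsDomain D] [Algebra A D] (d : D) :
    ∀ (n : ℕ) (f : A[X]), f.Monic → f.natDegree = n → aeval d f = 0 →
      ∃ a : A, algebraMap A D a = d :=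
  exists_algebraMap_eq_of_aeval_eq_zero' (FractionRing A) d

/-- `exists_algHom_lift'` with `L = FractionRing A`. -/
theorem exists_algHom_lift
    {A : Type*} [CommRing A] [IsDomain A] [IsIntegrallyClosed A] [IsAlgClosed (FractionRing A)]
    {k : Type*} [CommRing k] [IsDomain k] [Algebra A k]
    {Z : Type*} [CommRing Z] [Algebra A Z] [Module.Flat A Z] [Algebra.IsIntegral A Z]
    (χ : Z →ₐ[A] k) : ∃ P : Z →ₐ[A] A, ∀ z, algebraMap A k (P z) = χ z :=
  exists_algHom_lift' (FractionRing A) χ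

/-- (S1), point-set form, any fraction field `L` of `A`: if `𝒜 ⧸ I` is flat and integral over
`A`, every `A`-algebra hom `χ : 𝒜 → k` killing `I` lifts to an `A`-valued point killing `I`. -/
theorem exists_algHom_lift_of_quotient'
    {A : Type*} [CommRing A] [IsDomain A] [IsIntegrallyClosed A]
    (L : Type*) [Field L] [Algebra A L] [IsFractionRing A L] [IsAlgClosed L]
    {k : Type*} [CommRing k] [IsDomain k] [Algebra A k]
    {𝒜 : Type*} [CommRing 𝒜] [Algebra A 𝒜] (I : Ideal 𝒜)
    [Module.Flat A (𝒜 ⧸ I)] [Algebra.IsIntegral A (𝒜 ⧸ I)]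
    (χ : 𝒜 →ₐ[A] k) (hχ : ∀ c ∈ I, χ c = 0) :
    ∃ P : 𝒜 →ₐ[A] A, (∀ c ∈ I, P c = 0) ∧ ∀ c, algebraMap A k (P c) = χ c := by
  obtain ⟨P, hP⟩ := exists_algHom_lift' L (Ideal.Quotient.liftₐ I χ hχ)
  refine ⟨P.comp (Ideal.Quotient.mkₐ A I), fun c hc => ?_, fun c => ?_⟩
  · have : (Ideal.Quotient.mkₐ A I) c = 0 := Ideal.Quotient.eq_zero_iff_mem.mpr hc
    rw [AlgHom.comp_apply, this, map_zero]
  · rw [AlgHom.comp_apply, hP]
    rfl

/-- Base-change form, any fraction field `L` of `A`: `R → A` any ring hom, `Z` flat and integral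
over `R`; every `R`-algebra hom `Z → k` lifts to an `R`-algebra hom `Z → A`. -/
theorem exists_algHom_lift_baseChange'
    {R : Type*} [CommRing R]
    {A : Type*} [CommRing A] [IsDomain A] [IsIntegrallyClosed A]
    (L : Type*) [Field L] [Algebra A L] [IsFractionRing A L] [IsAlgClosed L]
    [Algebra R A]
    {k : Type*} [CommRing k] [IsDomain k] [Algebra A k] [Algebra R k] [IsScalarTower R A k]
    {Z : Type*} [CommRing Z] [Algebra R Z] [Module.Flat R Z] [Algebra.IsIntegral R Z]
    (χ : Z →ₐ[R] k) : ∃ P : Z →ₐ[R] A, ∀ z, algebraMap A k (P z) = χ z := by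
  let χ' : TensorProduct R A Z →ₐ[A] k :=
    Algebra.TensorProduct.lift (Algebra.ofId A k) χ (fun _ _ => Commute.all _ _)
  obtain ⟨P, hP⟩ := exists_algHom_lift' L χ'
  refine ⟨(P.restrictScalars R).comp Algebra.TensorProduct.includeRight, fun z => ?_⟩
  have := hP ((1 : A) ⊗ₜ[R] z)
  simpa [χ'] using this

/-- **(S1), point-set form.**  If `𝒜 ⧸ I` is flat and integral over `A` (e.g. finite free), then
every `A`-algebra hom `χ : 𝒜 → k` killing `I` lifts to an `A`-valued point `P` of `𝒜` killing `I`. -/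
theorem exists_algHom_lift_of_quotient
    {A : Type*} [CommRing A] [IsDomain A] [IsIntegrallyClosed A] [IsAlgClosed (FractionRing A)]
    {k : Type*} [CommRing k] [IsDomain k] [Algebra A k]
    {𝒜 : Type*} [CommRing 𝒜] [Algebra A 𝒜] (I : Ideal 𝒜)
    [Module.Flat A (𝒜 ⧸ I)] [Algebra.IsIntegral A (𝒜 ⧸ I)]
    (χ : 𝒜 →ₐ[A] k) (hχ : ∀ c ∈ I, χ c = 0) :
    ∃ P : 𝒜 →ₐ[A] A, (∀ c ∈ I, P c = 0) ∧ ∀ c, algebraMap A k (P c) = χ c := by
  obtain ⟨P, hP⟩ := exists_algHom_lift (Ideal.Quotient.liftₐ I χ hχ)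
  refine ⟨P.comp (Ideal.Quotient.mkₐ A I), fun c hc => ?_, fun c => ?_⟩
  · have : (Ideal.Quotient.mkₐ A I) c = 0 := Ideal.Quotient.eq_zero_iff_mem.mpr hc
    rw [AlgHom.comp_apply, this, map_zero]
  · rw [AlgHom.comp_apply, hP]
    rfl

/-- (S1), point-set form, for a principal ideal `(x)`. -/
theorem exists_algHom_lift_of_quotient_span
    {A : Type*} [CommRing A] [IsDomain A] [IsIntegrallyClosed A] [IsAlgClosed (FractionRing A)]
    {k : Type*} [CommRing k] [IsDomain k] [Algebra A k]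
    {𝒜 : Type*} [CommRing 𝒜] [Algebra A 𝒜] (x : 𝒜)
    [Module.Flat A (𝒜 ⧸ Ideal.span {x})] [Algebra.IsIntegral A (𝒜 ⧸ Ideal.span {x})]
    (χ : 𝒜 →ₐ[A] k) (hχ : χ x = 0) :
    ∃ P : 𝒜 →ₐ[A] A, P x = 0 ∧ ∀ c, algebraMap A k (P c) = χ c := by
  obtain ⟨P, hP0, hP⟩ := exists_algHom_lift_of_quotient (Ideal.span {x}) χ (fun c hc => by
    obtain ⟨y, rfl⟩ := Ideal.mem_span_singleton'.mp hc
    rw [map_mul, hχ, mul_zero])
  exact ⟨P, hP0 x (Ideal.subset_span rfl), hP⟩

/-- Base-change form: `R → A` any ring hom, `Z` flat and integral over `R`; every `R`-algebra hom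
`Z → k` lifts to an `R`-algebra hom `Z → A`.  (Apply with `R = ℤ_(ℓ)`, `Z = A_fin/(j - a)`.) -/
theorem exists_algHom_lift_baseChange
    {R : Type*} [CommRing R]
    {A : Type*} [CommRing A] [IsDomain A] [IsIntegrallyClosed A] [IsAlgClosed (FractionRing A)]
    [Algebra R A]
    {k : Type*} [CommRing k] [IsDomain k] [Algebra A k] [Algebra R k] [IsScalarTower R A k]
    {Z : Type*} [CommRing Z] [Algebra R Z] [Module.Flat R Z] [Algebra.IsIntegral R Z]
    (χ : Z →ₐ[R] k) : ∃ P : Z →ₐ[R] A, ∀ z, algebraMap A k (P z) = χ z := by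
  let χ' : TensorProduct R A Z →ₐ[A] k :=
    Algebra.TensorProduct.lift (Algebra.ofId A k) χ (fun _ _ => Commute.all _ _)
  obtain ⟨P, hP⟩ := exists_algHom_lift χ'
  refine ⟨(P.restrictScalars R).comp Algebra.TensorProduct.includeRight, fun z => ?_⟩
  have := hP ((1 : A) ⊗ₜ[R] z)
  simpa [χ'] using this

end Fermat.Agent.S18.SPEC9202
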